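import Mathlib

/-!
# S59 / G4 / ODD, field-theoretic core (helper178) — Mathlib only

An involution `c ≠ 1` of an algebraically closed field `K` with `2 ≠ 0` inverts every root of
unity of odd prime-power order (a fragment of Artin–Schreier theory, proved by hand):

* `K = F ⊕ F θ` with `F` the fixed field, `c θ = -θ`;
* `-1` is not a square in `F` (`neg_one_not_sq_fixed`);
* sums of squares of fixed elements are squares of fixed elements (`exists_fixed_sq_eq_sum`);
* a `p`-th root of unity `ζ ≠ 1` (`p` odd) is not fixed: otherwise `-1 = ζ + ⋯ + ζ^(p-1)` is a sum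
  of squares of fixed elements (`ne_of_primitive`);
* hence `μ * c μ = 1` whenever `μ ^ p ^ n = 1` (`involution_mul_self_eq_one`).
-/

set_option autoImplicit false

namespace Fermat.Agent.S59.G4.H178

open Finset

section Core

variable {K : Type*} [Field K] [IsAlgClosed K]

omit [IsAlgClosed K] in
/-- The norm `w * c w` of an involution is fixed. -/
theorem norm_fixed (c : K ≃+* K) (hc : ∀ x, c (c x) = x) (w : K) : c (w * c w) = w * c w := by
  rw [map_mul, hc, mul_comm]

/-- For an involution `c ≠ 1` of an algebraically closed field with `2 ≠ 0`, a square root of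
`-1` is not fixed. -/
theorem neg_one_not_sq_fixed (h2 : (2 : K) ≠ 0) (c : K ≃+* K) (hc : ∀ x, c (c x) = x)
    (hne : ∃ x, c x ≠ x) (i : K) (hi : i * i = -1) : c i ≠ i := by
  intro hfix
  obtain ⟨x, hx⟩ := hne
  -- `θ` is anti-fixed and nonzero
  set θ : K := x - c x with hθ
  have hθ0 : θ ≠ 0 := fun h => hx (by rw [hθ, sub_eq_zero] at h; exact h.symm)
  have hcθ : c θ = -θ := by rw [hθ, map_sub, hc]; ring
  -- a square root `w` of `θ`
  obtain ⟨w, hw⟩ := IsAlgClosed.exists_pow_nat_eq θ (n := 2) (by norm_num)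
  have hN : c (w * c w) = w * c w := norm_fixed c hc w
  have hN2 : (w * c w) ^ 2 = -(θ ^ 2) := by
    have : c w ^ 2 = -θ := by rw [← map_pow, hw, hcθ]
    calc (w * c w) ^ 2 = w ^ 2 * c w ^ 2 := by ring
      _ = θ * -θ := by rw [hw, this]
      _ = -(θ ^ 2) := by ring
  -- `θ ^ 2 = (i * N) ^ 2`
  have h3 : θ ^ 2 = (i * (w * c w)) ^ 2 := by
    have : (i * (w * c w)) ^ 2 = (i * i) * (w * c w) ^ 2 := by ring
    rw [this, hi, hN2]; ring
  have h4 : c (i * (w * c w)) = i * (w * c w) := by rw [map_mul, hfix, hN]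
  -- hence `θ = ± i N` is fixed
  have h5 : θ = i * (w * c w) ∨ θ = -(i * (w * c w)) := sq_eq_sq_iff_eq_or_eq_neg.mp h3
  have h6 : c θ = θ := by
    rcases h5 with h | h
    · rw [h, h4]
    · rw [h, map_neg, h4]
  have h7 : (2 : K) * θ = 0 := by
    have : θ = -θ := h6.symm.trans hcθ
    linear_combination this
  rcases mul_eq_zero.mp h7 with h | h
  · exact h2 h
  · exact hθ0 h

/-- The sum of two squares of fixed elements is the square of a fixed element. -/
theorem exists_fixed_sq_eq_add (h2 : (2 : K) ≠ 0) (c : K ≃+* K) (hc : ∀ x, c (c x) = x)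
    (hne : ∃ x, c x ≠ x) (a b : K) (ha : c a = a) (hb : c b = b) :
    ∃ s : K, c s = s ∧ s ^ 2 = a ^ 2 + b ^ 2 := by
  obtain ⟨i, hi⟩ := IsAlgClosed.exists_pow_nat_eq (-1 : K) (n := 2) (by norm_num)
  have hi' : i * i = -1 := by rw [← sq]; exact hi
  have hci : c i = -i := by
    have h1 : c i ≠ i := neg_one_not_sq_fixed h2 c hc hne i hi'
    have h3 : c i ^ 2 = i ^ 2 := by rw [← map_pow, hi, map_neg, map_one]
    rcases sq_eq_sq_iff_eq_or_eq_neg.mp h3 with h | h
    · exact absurd h h1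
    · exact h
  obtain ⟨w, hw⟩ := IsAlgClosed.exists_pow_nat_eq (a + b * i) (n := 2) (by norm_num)
  refine ⟨w * c w, norm_fixed c hc w, ?_⟩
  have hcw : c w ^ 2 = a - b * i := by
    rw [← map_pow, hw, map_add, map_mul, ha, hb, hci]; ring
  calc (w * c w) ^ 2 = w ^ 2 * c w ^ 2 := by ring
    _ = (a + b * i) * (a - b * i) := by rw [hw, hcw]
    _ = a ^ 2 - b ^ 2 * (i * i) := by ring
    _ = a ^ 2 + b ^ 2 := by rw [hi']; ring

/-- A finite sum of squares of fixed elements is the square of a fixed element. -/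
theorem exists_fixed_sq_eq_sum (h2 : (2 : K) ≠ 0) (c : K ≃+* K) (hc : ∀ x, c (c x) = x)
    (hne : ∃ x, c x ≠ x) {ι : Type*} (s : Finset ι) (f : ι → K) (hf : ∀ j ∈ s, c (f j) = f j) :
    ∃ t : K, c t = t ∧ t ^ 2 = ∑ j ∈ s, f j ^ 2 := by
  classical
  induction s using Finset.induction_on with
  | empty => exact ⟨0, map_zero c, by simp⟩
  | insert a s ha ih =>
    obtain ⟨t, ht, ht2⟩ := ih (fun j hj => hf j (Finset.mem_insert_of_mem hj))
    obtain ⟨u, hu, hu2⟩ := exists_fixed_sq_eq_add h2 c hc hne (f a) t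
      (hf a (Finset.mem_insert_self a s)) ht
    refine ⟨u, hu, ?_⟩
    rw [Finset.sum_insert ha, hu2, ht2]

/-- A nontrivial `p`-th root of unity, `p` odd, is not fixed by an involution `c ≠ 1`. -/
theorem ne_of_pow_prime_eq_one (h2 : (2 : K) ≠ 0) (c : K ≃+* K) (hc : ∀ x, c (c x) = x)
    (hne : ∃ x, c x ≠ x) (p : ℕ) (hp : Odd p) (ζ : K) (hζ : ζ ^ p = 1) (hζ1 : ζ ≠ 1) :
    c ζ ≠ ζ := by
  intro hfix
  obtain ⟨m, hm⟩ := hp
  -- `ζ ^ k = (ζ ^ (k * (m + 1))) ^ 2`
  have hsq : ∀ k : ℕ, ζ ^ k = (ζ ^ (k * (m + 1))) ^ 2 := by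
    intro k
    rw [← pow_mul]
    have : k * (m + 1) * 2 = k + p * k := by rw [hm]; ring
    rw [this, pow_add, pow_mul, hζ, one_pow, mul_one]
  -- the geometric sum
  have hgeom : ∑ k ∈ Finset.range p, ζ ^ k = 0 := by
    have h := mul_geom_sum ζ p
    rw [hζ, sub_self] at h
    rcases mul_eq_zero.mp h with h | h
    · exact absurd (sub_eq_zero.mp h) hζ1
    · exact h
  have hp1 : p = (2 * m) + 1 := hm
  have hsum : ∑ k ∈ Finset.range (2 * m), ζ ^ (k + 1) = -1 := by
    rw [hp1, Finset.sum_range_succ'] at hgeom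
    rw [pow_zero] at hgeom
    linear_combination hgeom
  have hsum' : ∑ k ∈ Finset.range (2 * m), (ζ ^ ((k + 1) * (m + 1))) ^ 2 = -1 := by
    rw [← hsum]
    exact Finset.sum_congr rfl (fun k _ => (hsq (k + 1)).symm)
  obtain ⟨t, ht, ht2⟩ := exists_fixed_sq_eq_sum h2 c hc hne (Finset.range (2 * m))
    (fun k => ζ ^ ((k + 1) * (m + 1))) (fun k _ => by rw [map_pow, hfix])
  rw [hsum'] at ht2
  exact neg_one_not_sq_fixed h2 c hc hne t (by rw [← sq]; exact ht2) ht

/-- **An involution `c ≠ 1` of an algebraically closed field inverts the roots of unity of odd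
prime-power order.** -/
theorem involution_mul_self_eq_one (h2 : (2 : K) ≠ 0) (c : K ≃+* K) (hc : ∀ x, c (c x) = x)
    (hne : ∃ x, c x ≠ x) (p : ℕ) (hp : p.Prime) (hp2 : p ≠ 2) (n : ℕ) (μ : K)
    (hμ : μ ^ p ^ n = 1) : μ * c μ = 1 := by
  by_contra hν
  set ν : K := μ * c μ with hνdef
  have hνfix : c ν = ν := norm_fixed c hc μ
  have hνpow : ν ^ p ^ n = 1 := by
    rw [hνdef, mul_pow, ← map_pow, hμ, map_one, mul_one]
  -- the order of `ν` is `p ^ (j + 1)`
  have hord : orderOf ν ∣ p ^ n := orderOf_dvd_of_pow_eq_one hνpow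
  obtain ⟨j, -, hj⟩ := (Nat.dvd_prime_pow hp).mp hord
  have hj0 : j ≠ 0 := by
    rintro rfl
    rw [pow_zero, orderOf_eq_one_iff] at hj
    exact hν hj
  obtain ⟨i, rfl⟩ := Nat.exists_eq_succ_of_ne_zero hj0
  set ζ : K := ν ^ p ^ i with hζdef
  have hζp : ζ ^ p = 1 := by
    rw [hζdef, ← pow_mul, ← pow_succ, ← hj]
    exact pow_orderOf_eq_one ν
  have hζ1 : ζ ≠ 1 := by
    intro h
    have h1 : orderOf ν ∣ p ^ i := orderOf_dvd_of_pow_eq_one h
    rw [hj] at h1
    have h2' : p ^ (i + 1) ≤ p ^ i := Nat.le_of_dvd (pow_pos hp.pos i) h1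
    have h3 : p ^ i < p ^ (i + 1) := Nat.pow_lt_pow_right hp.one_lt (Nat.lt_succ_self i)
    omega
  have hζfix : c ζ = ζ := by rw [hζdef, map_pow, hνfix]
  exact ne_of_pow_prime_eq_one h2 c hc hne p (hp.odd_of_ne_two hp2) ζ hζp hζ1 hζfix

end Core

end Fermat.Agent.S59.G4.H178
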