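import Fermat.Agent.S59.G4.Spec
import Fermat.Agent.S59.H540.DetCyc
import Fermat.Agent.S59.G4.H178.Involution

/-!
# S59 / G4 / ODD (helper178): `Fermat.Agent.S59.G4.OddStatement`

* `involution_apply_root` : an involution `c ≠ 1` of `Gal(ℚ̄/ℚ)` maps `μ` to `μ ^ (p ^ n - 1)`
  for every `μ` with `μ ^ p ^ n = 1`, `p` an odd prime.
* `det_involution_eq_neg_one` : a representation over a noetherian local ring with cyclotomic
  determinant has `det ρ(c) = -1` on every involution `c ≠ 1`.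
* `odd : OddStatement`.

Inputs: `Involution.lean` (Mathlib only), `Fermat.Agent.S59.H540.detIsCyclotomic_of_frob` (main).
-/

set_option autoImplicit false

namespace Fermat.Agent.S59.G4.H178

open IsLocalRing Fermat.Agent.S31

/-- An involution `c ≠ 1` of `Gal(ℚ̄/ℚ)` acts on `μ_{p^n}` (`p` odd) by `μ ↦ μ ^ (p ^ n - 1)`. -/
theorem involution_apply_root (p : ℕ) (hp : p.Prime) (hp2 : p ≠ 2) (c : GQ) (hc : c * c = 1)
    (hc1 : c ≠ 1) (n : ℕ) (μ : Qb) (hμ : μ ^ p ^ n = 1) : c μ = μ ^ (p ^ n - 1) := by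
  have hcc : ∀ x : Qb, (c : Qb ≃+* Qb) ((c : Qb ≃+* Qb) x) = x := by
    intro x
    have h := congrArg (fun f : GQ => f x) hc
    simpa [AlgEquiv.mul_apply] using h
  have hne : ∃ x : Qb, (c : Qb ≃+* Qb) x ≠ x := by
    by_contra h
    exact hc1 (AlgEquiv.ext fun x => not_not.mp (not_exists.mp h x))
  have h1 : μ * c μ = 1 :=
    involution_mul_self_eq_one (K := Qb) two_ne_zero (c : Qb ≃+* Qb) hcc hne p hp hp2 n μ hμ
  have hpos : 0 < p ^ n := pow_pos hp.pos n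
  have h2 : μ * μ ^ (p ^ n - 1) = 1 := by
    rw [← pow_succ', Nat.sub_add_cancel hpos, hμ]
  have hμ0 : μ ≠ 0 := by
    rintro rfl
    rw [zero_mul] at h1
    exact zero_ne_one h1
  exact mul_left_cancel₀ hμ0 (h1.trans h2.symm)

/-- A representation with cyclotomic determinant is odd: `det ρ(c) = -1` for every involution
`c ≠ 1`. -/
theorem det_involution_eq_neg_one {A : Type} [CommRing A] [IsLocalRing A] [IsNoetherianRing A]
    (ρ : GaloisRepAdic A) (p : ℕ) [Fact p.Prime] (hp2 : p ≠ 2) (hdet : ρ.DetIsCyclotomic p)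
    (c : GQ) (hc : c * c = 1) (hc1 : c ≠ 1) : LinearMap.det (ρ.ρ c) = -1 := by
  have hp : p.Prime := Fact.out
  have hpA : (p : A) ∈ maximalIdeal A := hdet.1
  have hmem : LinearMap.det (ρ.ρ c) + 1 ∈ (⊥ : Ideal A) := by
    apply Fermat.Agent.S59.H540.mem_of_forall_mem_sup_pow
    intro k
    have h1 : LinearMap.det (ρ.ρ c) - ((p ^ k - 1 : ℕ) : A) ∈ Ideal.span {((p ^ k : ℕ) : A)} :=
      hdet.2 k c (p ^ k - 1) (fun μ hμ => involution_apply_root p hp hp2 c hc hc1 k μ hμ)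
    have hpos : 1 ≤ p ^ k := pow_pos hp.pos k
    have h2 : ((p ^ k : ℕ) : A) ∈ maximalIdeal A ^ k := by
      rw [Nat.cast_pow]
      exact Ideal.pow_mem_pow hpA k
    have h3 : Ideal.span {((p ^ k : ℕ) : A)} ≤ maximalIdeal A ^ k :=
      (Ideal.span_singleton_le_iff_mem _).mpr h2
    have h4 : LinearMap.det (ρ.ρ c) + 1 =
        (LinearMap.det (ρ.ρ c) - ((p ^ k - 1 : ℕ) : A)) + ((p ^ k : ℕ) : A) := by
      rw [Nat.cast_sub hpos, Nat.cast_one]; ring
    rw [h4]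
    exact (le_sup_right : maximalIdeal A ^ k ≤ ⊥ ⊔ maximalIdeal A ^ k)
      (Ideal.add_mem _ (h3 h1) h2)
  exact eq_neg_of_add_eq_zero_left ((Ideal.mem_bot).mp hmem)

/-- **ODD.** -/
theorem odd : OddStatement := by
  intro p _ hp2 N _ S _hpS O _ _ _ _ _ _ hpO χ ρ hF c hc hc1
  classical
  have hdet : ρ.DetIsCyclotomic p := by
    refine Fermat.Agent.S59.H540.detIsCyclotomic_of_frob ρ p hpO (S ∪ N.primeFactors) ?_
    intro ℓ hℓ hℓS P hP σ hσ
    have hℓS' : ℓ ∉ (↑S : Set ℕ) := fun h => hℓS (Finset.mem_union_left _ (Finset.mem_coe.mp h))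
    have hℓN : ¬ ℓ ∣ N := fun h =>
      hℓS (Finset.mem_union_right _ (Nat.mem_primeFactors.mpr ⟨hℓ, h, NeZero.ne N⟩))
    exact Fermat.Agent.S59.H540.det_eq_of_charpoly ρ.finrank_eq _ _ _
      (hF ℓ hℓ hℓN hℓS' P hP σ hσ)
  exact det_involution_eq_neg_one ρ p hp2 hdet c hc hc1

end Fermat.Agent.S59.G4.H178
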